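/-
S16 / SwD: weighted-homogeneous polynomials via the scaling homomorphism
`X i ↦ X i * λ ^ (w i)`; factors of weighted-homogeneous polynomials are weighted homogeneous.
-/
import Mathlib

set_option autoImplicit false

namespace Fermat.Agent.S16.SwD.Scaling

open MvPolynomial

variable {σ : Type*} {R : Type*} [CommRing R] (w : σ → ℕ)

/-- The scaling homomorphism `X i ↦ X i * λ ^ (w i)` into polynomials in `λ`. -/
noncomputable def scal : MvPolynomial σ R →ₐ[R] Polynomial (MvPolynomial σ R) :=
  aeval (fun i => Polynomial.C (X i) * Polynomial.X ^ (w i))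

theorem scal_X (i : σ) :
    scal (R := R) w (X i) = Polynomial.C (X i) * Polynomial.X ^ (w i) := by
  simp [scal]

theorem scal_monomial (d : σ →₀ ℕ) (r : R) :
    scal w (monomial d r) = Polynomial.monomial (Finsupp.weight w d) (monomial d r) := by
  classical
  rw [scal, aeval_monomial]
  have h1 : (d.prod fun i k => (Polynomial.C (X i : MvPolynomial σ R) * Polynomial.X ^ (w i)) ^ k)
      = Polynomial.C (d.prod fun i k => (X i : MvPolynomial σ R) ^ k) *
        Polynomial.X ^ (Finsupp.weight w d) := by
    rw [Finsupp.weight_apply]
    simp only [Finsupp.prod, Finsupp.sum, mul_pow, Finset.prod_mul_distrib, map_prod, map_pow,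
      ← pow_mul, Finset.prod_pow_eq_pow_sum, smul_eq_mul]
    congr 2
    refine Finset.sum_congr rfl fun i _ => ?_
    ring
  rw [h1, ← mul_assoc, Polynomial.algebraMap_apply, algebraMap_eq, ← Polynomial.C_mul,
    Polynomial.C_mul_X_pow_eq_monomial, monomial_eq]

theorem coeff_coeff_scal (F : MvPolynomial σ R) (m : ℕ) (d : σ →₀ ℕ) :
    coeff d ((scal w F).coeff m) = if Finsupp.weight w d = m then coeff d F else 0 := by
  classical
  induction F using MvPolynomial.induction_on' with
  | monomial d' r =>
    rw [scal_monomial, Polynomial.coeff_monomial]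
    by_cases h : Finsupp.weight w d' = m
    · rw [if_pos h, coeff_monomial]
      by_cases h' : d' = d
      · subst h'; simp [h]
      · simp [h']
    · rw [if_neg h, coeff_zero, coeff_monomial]
      by_cases h' : d' = d
      · subst h'; simp [h]
      · simp [h']
  | add p q hp hq =>
    rw [map_add, Polynomial.coeff_add, coeff_add, hp, hq, coeff_add]
    split_ifs <;> simp

theorem scal_of_isWeightedHomogeneous {F : MvPolynomial σ R} {n : ℕ}
    (hF : IsWeightedHomogeneous w F n) : scal w F = Polynomial.monomial n F := by
  classical
  ext m d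
  rw [coeff_coeff_scal, Polynomial.coeff_monomial]
  by_cases h : Finsupp.weight w d = m
  · rw [if_pos h]
    by_cases h' : n = m
    · rw [if_pos h']
    · rw [if_neg h', coeff_zero]
      by_contra hne
      exact h' ((hF hne).symm.trans h)
  · rw [if_neg h]
    by_cases h' : n = m
    · rw [if_pos h']
      by_contra hne
      exact h ((hF (Ne.symm hne)).trans h')
    · rw [if_neg h', coeff_zero]

theorem isWeightedHomogeneous_of_scal {F : MvPolynomial σ R} {n : ℕ}
    {G : MvPolynomial σ R} (h : scal w F = Polynomial.monomial n G) :
    IsWeightedHomogeneous w F n := by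
  classical
  intro d hd
  by_contra hne
  have := coeff_coeff_scal w F (Finsupp.weight w d) d
  rw [if_pos rfl, h, Polynomial.coeff_monomial, if_neg (Ne.symm hne), coeff_zero] at this
  exact hd this.symm

/-- evaluating `λ = 1` recovers the polynomial. -/
theorem eval_one_scal (F : MvPolynomial σ R) : (scal w F).eval 1 = F := by
  induction F using MvPolynomial.induction_on' with
  | monomial d r => rw [scal_monomial, Polynomial.eval_monomial, one_pow, mul_one]
  | add p q hp hq => rw [map_add, Polynomial.eval_add, hp, hq]

theorem scal_injective : Function.Injective (scal (R := R) w) := by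
  intro F G h
  rw [← eval_one_scal w F, ← eval_one_scal w G, h]

section Domain

variable [IsDomain R]

/-- If `F ≠ 0` is weighted homogeneous of weight `m` and `F * G` is weighted homogeneous of
weight `n`, then `G` is weighted homogeneous of weight `n - m`, and `m ≤ n` unless `G = 0`. -/
theorem factor_right {F G : MvPolynomial σ R} {m n : ℕ} (hF0 : F ≠ 0)
    (hF : IsWeightedHomogeneous w F m) (hFG : IsWeightedHomogeneous w (F * G) n) :
    IsWeightedHomogeneous w G (n - m) ∧ (G ≠ 0 → m ≤ n) := by
  have h : Polynomial.monomial m F * scal w G = Polynomial.monomial n (F * G) := by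
    rw [← scal_of_isWeightedHomogeneous w hF, ← scal_of_isWeightedHomogeneous w hFG, map_mul]
  have hj : ∀ j, j + m ≠ n → (scal w G).coeff j = 0 := by
    intro j hjn
    have := congrArg (fun q => Polynomial.coeff q (j + m)) h
    simp only [Polynomial.coeff_monomial_mul, Polynomial.coeff_monomial] at this
    rw [if_neg (Ne.symm hjn)] at this
    exact (mul_eq_zero.mp this).resolve_left hF0
  by_cases hmn : m ≤ n
  · refine ⟨?_, fun _ => hmn⟩
    apply isWeightedHomogeneous_of_scal w (G := (scal w G).coeff (n - m))
    ext1 j
    rw [Polynomial.coeff_monomial]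
    by_cases hjj : n - m = j
    · rw [if_pos hjj, hjj]
    · rw [if_neg hjj]
      exact hj j (by omega)
  · have hG : G = 0 := by
      apply scal_injective w
      rw [map_zero]
      ext1 j
      rw [Polynomial.coeff_zero]
      exact hj j (by omega)
    subst hG
    exact ⟨isWeightedHomogeneous_zero R w _, fun h => absurd rfl h⟩

/-- Both factors of a nonzero weighted-homogeneous polynomial are weighted homogeneous. -/
theorem exists_weight_of_mul {P U A : MvPolynomial σ R} {n : ℕ} (hA0 : A ≠ 0)
    (hA : IsWeightedHomogeneous w A n) (h : A = P * U) :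
    ∃ m, m ≤ n ∧ IsWeightedHomogeneous w P m ∧ IsWeightedHomogeneous w U (n - m) := by
  classical
  have hP0 : P ≠ 0 := by rintro rfl; exact hA0 (by rw [h, zero_mul])
  have hU0 : U ≠ 0 := by rintro rfl; exact hA0 (by rw [h, mul_zero])
  have hp0 : scal w P ≠ 0 := fun h0 => hP0 (scal_injective w (by rw [h0, map_zero]))
  have hu0 : scal w U ≠ 0 := fun h0 => hU0 (scal_injective w (by rw [h0, map_zero]))
  have hpu : scal w P * scal w U = Polynomial.monomial n A := by
    rw [← scal_of_isWeightedHomogeneous w hA, h, map_mul]
  have hd : (scal w P).natDegree + (scal w U).natDegree = n := by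
    rw [← Polynomial.natDegree_mul hp0 hu0, hpu, Polynomial.natDegree_monomial, if_neg hA0]
  have ht : (scal w P).natTrailingDegree + (scal w U).natTrailingDegree = n := by
    rw [← Polynomial.natTrailingDegree_mul hp0 hu0, hpu, Polynomial.natTrailingDegree_monomial hA0]
  have h1 := Polynomial.natTrailingDegree_le_natDegree (p := scal w P)
  have h2 := Polynomial.natTrailingDegree_le_natDegree (p := scal w U)
  have hm : (scal w P).natTrailingDegree = (scal w P).natDegree := by omega
  have hPm : IsWeightedHomogeneous w P (scal w P).natDegree := by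
    apply isWeightedHomogeneous_of_scal w (G := (scal w P).coeff (scal w P).natDegree)
    ext1 j
    rw [Polynomial.coeff_monomial]
    by_cases hjj : (scal w P).natDegree = j
    · rw [if_pos hjj, hjj]
    · rw [if_neg hjj]
      rcases lt_or_gt_of_ne hjj with hlt | hgt
      · exact Polynomial.coeff_eq_zero_of_natDegree_lt hlt
      · exact Polynomial.coeff_eq_zero_of_lt_natTrailingDegree (by omega)
  refine ⟨(scal w P).natDegree, by omega, hPm, ?_⟩
  exact (factor_right w hP0 hPm (h ▸ hA)).1

end Domain

end Fermat.Agent.S16.SwD.Scaling
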