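/-
S16 / SwD: the abstract Swinnerton-Dyer argument of `Abstract.lean` over an ARBITRARY field `K` of
characteristic `l ≥ 5` (perfect case directly; general case by base change to the algebraic
closure).  Same statements as `Abstract.lean`, with `ZMod l` replaced by `K`.
-/
import Mathlib
import Fermat.Agent.S16.SwD.Scaling
import Fermat.Agent.S16.SwD.Abstract

set_option autoImplicit false

namespace Fermat.Agent.S16.SwD.AbstractK

open MvPolynomial Fermat.Agent.S16.SwD.Scaling Fermat.Agent.S16.SwD.Abstract

section main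

variable {l : ℕ} [hl : Fact l.Prime] {K : Type*} [Field K] [CharP K l]

variable (Qb Rb Pb : PowerSeries K)

/-- Evaluation at `(Qb, Rb)`. -/
noncomputable def ev : MvPolynomial (Fin 2) K →ₐ[K] PowerSeries K :=
  aeval ![Qb, Rb]

@[simp] theorem ev_X0 : ev Qb Rb (X 0) = Qb := by simp [ev]
@[simp] theorem ev_X1 : ev Qb Rb (X 1) = Rb := by simp [ev]
@[simp] theorem ev_C (a : K) : ev Qb Rb (C a) = PowerSeries.C a := by
  simp [ev]

/-- Ramanujan's differential equations (and normalisations) for the three series. -/
structure Ramanujan : Prop where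
  thQ : 3 * θ Qb = Pb * Qb - Rb
  thR : 2 * θ Rb = Pb * Rb - Qb ^ 2
  thP : 12 * θ Pb = Pb ^ 2 - Qb
  P0 : PowerSeries.constantCoeff Pb = 1
  QR : Qb ^ 3 - Rb ^ 2 ≠ 0

variable {Qb Rb Pb}

theorem key (h : Ramanujan Qb Rb Pb) (F : MvPolynomial (Fin 2) K) :
    12 * θ (ev Qb Rb F) = ev Qb Rb (del F) + Pb * ev Qb Rb (eul F) := by
  induction F using MvPolynomial.induction_on with
  | C a => simp [θ_C, del_C, eul_C]
  | add p q hp hq =>
    rw [map_add, θ_add, del_add, eul_add, map_add, map_add]
    linear_combination hp + hq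
  | mul_X p i ih =>
    fin_cases i
    · simp only [Fin.zero_eta]
      simp only [map_mul, θ_mul, del_mul, eul_mul, map_add, ev_X0, ev_X1, del_X0, eul_X0,
        map_neg, map_ofNat]
      linear_combination Qb * ih + 4 * ev Qb Rb p * h.thQ
    · simp only [Fin.mk_one]
      simp only [map_mul, θ_mul, del_mul, eul_mul, map_add, ev_X1, del_X1, eul_X1,
        map_neg, map_ofNat, map_pow, ev_X0]
      linear_combination Rb * ih + 6 * ev Qb Rb p * h.thR

theorem key_isWH (h : Ramanujan Qb Rb Pb) {F : MvPolynomial (Fin 2) K} {k : ℕ}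
    (hF : IsWeightedHomogeneous wt F k) :
    12 * θ (ev Qb Rb F) = ev Qb Rb (del F) + (k : PowerSeries K) * Pb * ev Qb Rb F := by
  rw [key h, eul_of_isWH hF, map_mul, map_natCast]; ring

omit hl in
theorem natCast_ne_zero_of_lt {n : ℕ} (h0 : 0 < n) (hn : n < l) : (n : K) ≠ 0 := by
  intro h
  rw [CharP.cast_eq_zero_iff K l] at h
  exact absurd (Nat.le_of_dvd h0 h) (by omega)

theorem field_twentyfour_ne_zero (h5 : 5 ≤ l) : (24 : K) ≠ 0 := by
  intro h
  have h' : ((24 : ℕ) : K) = 0 := by exact_mod_cast h
  rw [CharP.cast_eq_zero_iff K l] at h'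
  have hp := hl.out
  have hle := Nat.le_of_dvd (by norm_num) h'
  interval_cases l <;> first | omega | (norm_num at hp)

theorem twentyfour_ne_zero (h5 : 5 ≤ l) : (24 : PowerSeries K) ≠ 0 := by
  intro h
  apply field_twentyfour_ne_zero (l := l) (K := K) h5
  have : PowerSeries.C (24 : K) = 0 := by rw [map_ofNat]; exact h
  exact (map_eq_zero_iff _ PowerSeries.C_injective).mp this

theorem twentyfour_ne_zero' (h5 : 5 ≤ l) : (24 : MvPolynomial (Fin 2) K) ≠ 0 := by
  intro h
  apply field_twentyfour_ne_zero (l := l) (K := K) h5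
  have : (C (24 : K) : MvPolynomial (Fin 2) K) = 0 := by rw [map_ofNat]; exact h
  exact (map_eq_zero_iff _ (C_injective (Fin 2) K)).mp this

/-- If both partial derivatives vanish, the polynomial is an `l`-th power. -/
theorem exists_pow_eq_of_pderiv_eq_zero [PerfectField K] {F : MvPolynomial (Fin 2) K}
    (h0 : pderiv 0 F = 0) (h1 : pderiv 1 F = 0) :
    ∃ G : MvPolynomial (Fin 2) K, F = G ^ l ∧
      ∀ k, IsWeightedHomogeneous wt F k → IsWeightedHomogeneous wt G (k / l) := by
  classical
  have : ExpChar K l := ExpChar.prime hl.out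
  have : PerfectRing K l := PerfectField.toPerfectRing l
  have hl0 : l ≠ 0 := hl.out.ne_zero
  have hdvd : ∀ d ∈ F.support, ∀ i : Fin 2, l ∣ d i := by
    intro d hd i
    have hpi : pderiv i F = 0 := by fin_cases i <;> assumption
    by_cases hdi : d i = 0
    · rw [hdi]; exact dvd_zero l
    · have e : d - Finsupp.single i 1 + Finsupp.single i 1 = d := by
        ext j
        by_cases hj : j = i
        · subst hj; simp; omega
        · simp [Ne.symm hj]
      have := coeff_pderiv F (d - Finsupp.single i 1) (i := i)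
      rw [hpi, coeff_zero, e] at this
      have hc : coeff d F ≠ 0 := mem_support_iff.mp hd
      have h2 := (mul_eq_zero.mp this.symm).resolve_left hc
      have h3 : ((d i : ℕ) : K) = 0 := by
        have : (d - Finsupp.single i 1 : Fin 2 →₀ ℕ) i + 1 = d i := by simp; omega
        rw [← this]; push_cast; exact h2
      exact (CharP.cast_eq_zero_iff K l _).mp h3
  let dv : (Fin 2 →₀ ℕ) → (Fin 2 →₀ ℕ) := fun d => d.mapRange (· / l) (Nat.zero_div l)
  have hdv : ∀ d ∈ F.support, l • dv d = d := by
    intro d hd
    ext i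
    simp only [dv, Finsupp.coe_smul, Pi.smul_apply, Finsupp.mapRange_apply, smul_eq_mul]
    exact Nat.mul_div_cancel' (hdvd d hd i)
  refine ⟨∑ d ∈ F.support, monomial (dv d) ((frobeniusEquiv K l).symm (coeff d F)), ?_, ?_⟩
  · rw [sum_pow_char]
    conv_lhs => rw [F.as_sum]
    refine Finset.sum_congr rfl fun d hd => ?_
    rw [monomial_pow, hdv d hd, frobeniusEquiv_symm_pow_p]
  · intro k hk
    refine IsWeightedHomogeneous.sum _ _ _ fun d hd => ?_
    apply isWeightedHomogeneous_monomial
    have hw := hk (mem_support_iff.mp hd)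
    rw [weight_wt] at hw ⊢
    have e0 := hdv d hd
    have e00 : l * (dv d) 0 = d 0 := by
      have := congrArg (fun f => f 0) e0
      simpa using this
    have e01 : l * (dv d) 1 = d 1 := by
      have := congrArg (fun f => f 1) e0
      simpa using this
    rw [← hw, ← e00, ← e01]
    have : l * (dv d) 0 * 4 + l * (dv d) 1 * 6 = l * ((dv d) 0 * 4 + (dv d) 1 * 6) := by ring
    rw [this, Nat.mul_div_cancel_left _ hl.out.pos]

theorem pow_eq_C_imp {x : PowerSeries K} {c : K} (hx : x ^ l = PowerSeries.C c) :
    x = PowerSeries.C (PowerSeries.constantCoeff x) := by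
  have : CharP (PowerSeries K) l := by
    refine (CharP.charP_iff_prime_eq_zero hl.out).mpr ?_
    have : ((l : ℕ) : PowerSeries K) = PowerSeries.C ((l : ℕ) : K) := by
      rw [map_natCast]
    rw [this, CharP.cast_eq_zero K l, map_zero]
  set y := x - PowerSeries.C (PowerSeries.constantCoeff x) with hy
  have hy0 : PowerSeries.constantCoeff y = 0 := by simp [hy]
  have hxy : x = y + PowerSeries.C (PowerSeries.constantCoeff x) := by rw [hy]; ring
  have hpow : y ^ l = PowerSeries.C (c - (PowerSeries.constantCoeff x) ^ l) := by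
    have : x ^ l = y ^ l + (PowerSeries.C (PowerSeries.constantCoeff x)) ^ l := by
      conv_lhs => rw [hxy]
      exact add_pow_char _ _ _
    rw [hx] at this
    rw [map_sub, map_pow]
    linear_combination -this
  have hc0 : c - (PowerSeries.constantCoeff x) ^ l = 0 := by
    have := congrArg PowerSeries.constantCoeff hpow
    rw [map_pow, hy0, zero_pow hl.out.ne_zero, PowerSeries.constantCoeff_C] at this
    exact this.symm
  rw [hc0, map_zero] at hpow
  have : y = 0 := pow_eq_zero_iff hl.out.ne_zero |>.mp hpow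
  rw [hxy, this, zero_add]
  simp

/-- Evaluation is injective on isobaric polynomials. -/
theorem ev_injective_isWH [PerfectField K] (h : Ramanujan Qb Rb Pb) (h5 : 5 ≤ l) :
    ∀ (k : ℕ) (F : MvPolynomial (Fin 2) K), IsWeightedHomogeneous wt F k →
      ev Qb Rb F = 0 → F = 0 := by
  intro k
  induction k using Nat.strong_induction_on with
  | _ k ih =>
    intro F hF hev
    rcases Nat.eq_zero_or_pos k with rfl | hk
    · rw [eq_C_of_isWH_zero hF] at hev ⊢
      rw [ev_C] at hev
      rw [(map_eq_zero_iff _ PowerSeries.C_injective).mp hev, map_zero]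
    · have hevdel : ev Qb Rb (del F) = 0 := by
        have := key_isWH h hF
        rw [hev, θ_zero] at this
        linear_combination -this
      have heveul : ev Qb Rb (eul F) = 0 := by
        rw [eul_of_isWH hF, map_mul, hev, mul_zero]
      have h24 := twentyfour_ne_zero (l := l) (K := K) h5
      have hp0 : pderiv 0 F = 0 := by
        have hc := congrArg (ev Qb Rb) (cramer0 F)
        simp only [map_add, map_mul, map_sub, map_pow, ev_X0, ev_X1, map_ofNat, hevdel, heveul,
          mul_zero, add_zero] at hc
        have hz : ev Qb Rb (pderiv 0 F) = 0 := by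
          rcases mul_eq_zero.mp hc.symm with h' | h'
          · rcases mul_eq_zero.mp h' with h'' | h''
            · exact absurd h'' h24
            · exact absurd h'' h.QR
          · exact h'
        obtain ⟨hw, hle⟩ := isWH_pderiv hF 0
        by_contra hne
        have h4 : 4 ≤ k := hle hne
        exact hne (ih (k - 4) (by omega) _ hw hz)
      have hp1 : pderiv 1 F = 0 := by
        have hc := congrArg (ev Qb Rb) (cramer1 F)
        simp only [map_add, map_mul, map_sub, map_pow, ev_X0, ev_X1, map_ofNat, map_neg, hevdel,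
          heveul, mul_zero, add_zero] at hc
        have hz : ev Qb Rb (pderiv 1 F) = 0 := by
          rcases mul_eq_zero.mp hc.symm with h' | h'
          · rcases mul_eq_zero.mp h' with h'' | h''
            · exact absurd (neg_eq_zero.mp h'') h24
            · exact absurd h'' h.QR
          · exact h'
        obtain ⟨hw, hle⟩ := isWH_pderiv hF 1
        by_contra hne
        have h6 : 6 ≤ k := hle hne
        exact hne (ih (k - 6) (by omega) _ hw hz)
      obtain ⟨G, hFG, hG⟩ := exists_pow_eq_of_pderiv_eq_zero hp0 hp1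
      have hGev : ev Qb Rb G = 0 := by
        have : ev Qb Rb G ^ l = 0 := by rw [← map_pow, ← hFG, hev]
        exact pow_eq_zero_iff hl.out.ne_zero |>.mp this
      have hlt : k / l < k := Nat.div_lt_self hk hl.out.one_lt
      rw [hFG, ih (k / l) hlt G (hG k hF) hGev, zero_pow hl.out.ne_zero]

variable (l Qb Rb) in
/-- An isobaric polynomial of weight `l - 1` evaluating to `1` (the Hasse invariant). -/
structure Hasse (A : MvPolynomial (Fin 2) K) : Prop where
  isWH : IsWeightedHomogeneous wt A (l - 1)
  ev_one : ev Qb Rb A = 1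

variable {A : MvPolynomial (Fin 2) K}

omit hl [CharP K l] in
theorem Hasse.ne_zero (hA : Hasse l Qb Rb A) : A ≠ 0 := by
  intro h0
  have := hA.ev_one
  rw [h0, map_zero] at this
  exact zero_ne_one this

omit hl in
theorem natCast_l : ((l : ℕ) : PowerSeries K) = 0 := by
  have : ((l : ℕ) : PowerSeries K) = PowerSeries.C ((l : ℕ) : K) := by
    rw [map_natCast]
  rw [this, CharP.cast_eq_zero K l, map_zero]

theorem ev_del_A (h : Ramanujan Qb Rb Pb) (hA : Hasse l Qb Rb A) : ev Qb Rb (del A) = Pb := by
  have := key_isWH h hA.isWH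
  rw [hA.ev_one, θ_one, Nat.cast_pred hl.out.pos, natCast_l] at this
  linear_combination -this

theorem del_del_A [PerfectField K] (h : Ramanujan Qb Rb Pb) (h5 : 5 ≤ l) (hA : Hasse l Qb Rb A) :
    del (del A) = -(X 0 * A) := by
  have h1 : IsWeightedHomogeneous wt (del (del A)) (l + 3) := by
    have := isWH_del (isWH_del hA.isWH)
    have e : l - 1 + 2 + 2 = l + 3 := by omega
    rwa [e] at this
  have h2 : IsWeightedHomogeneous wt (X 0 * A) (l + 3) := by
    have := (isWeightedHomogeneous_X K wt 0).mul hA.isWH
    have e : wt 0 + (l - 1) = l + 3 := by simp; omega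
    rwa [e] at this
  have hev : ev Qb Rb (del (del A) + X 0 * A) = 0 := by
    have := key_isWH h (isWH_del hA.isWH)
    rw [ev_del_A h hA] at this
    have e : ((l - 1 + 2 : ℕ) : PowerSeries K) = 1 := by
      have : l - 1 + 2 = l + 1 := by omega
      rw [this, Nat.cast_add, natCast_l, Nat.cast_one, zero_add]
    rw [e] at this
    rw [map_add, map_mul, ev_X0, hA.ev_one]
    linear_combination h.thP - this
  have := ev_injective_isWH h h5 (l + 3) _ (h1.add h2) hev
  linear_combination this

omit hl in
theorem natCast_isUnit {n : ℕ} (h0 : 0 < n) (hn : n < l) :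
    IsUnit ((n : ℕ) : MvPolynomial (Fin 2) K) := by
  have : ((n : ℕ) : MvPolynomial (Fin 2) K) = C ((n : ℕ) : K) := by
    rw [map_natCast]
  rw [this]
  exact (IsUnit.mk0 _ (natCast_ne_zero_of_lt h0 hn)).map C

theorem eq_zero_of_isWH_two {F : MvPolynomial (Fin 2) K}
    (hF : IsWeightedHomogeneous wt F 2) : F = 0 := by
  ext d
  rw [coeff_zero]
  by_contra hne
  have := hF hne
  rw [weight_wt] at this
  omega

/-- A prime factor of `A` is isobaric of positive weight and does not divide its own `∂`. -/
theorem prime_factor (h : Ramanujan Qb Rb Pb) (hA : Hasse l Qb Rb A)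
    {π : MvPolynomial (Fin 2) K} (hπ : Prime π) (hπA : π ∣ A) :
    ¬ π ∣ del π ∧ ∃ w, 0 < w ∧ w ≤ l - 1 ∧ IsWeightedHomogeneous wt π w := by
  obtain ⟨u, hu⟩ := hπA
  obtain ⟨w, hwle, hπw, huw⟩ := exists_weight_of_mul wt hA.ne_zero hA.isWH hu
  have hw0 : 0 < w := by
    rcases Nat.eq_zero_or_pos w with rfl | hpos
    · exfalso
      have hc := eq_C_of_isWH_zero hπw
      have hc0 : coeff 0 π ≠ 0 := by
        intro h0
        rw [h0, map_zero] at hc
        exact hπ.ne_zero hc
      apply hπ.not_isUnit
      rw [hc]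
      exact (IsUnit.mk0 _ hc0).map C
    · exact hpos
  refine ⟨?_, w, hw0, hwle, hπw⟩
  rintro ⟨h', hh'⟩
  have hdel0 : del π = 0 := by
    have hw2 := isWH_del hπw
    rw [hh'] at hw2
    have := (factor_right wt hπ.ne_zero hπw hw2).1
    have e : w + 2 - w = 2 := by omega
    rw [e] at this
    rw [hh', eq_zero_of_isWH_two this, mul_zero]
  have hkey := key_isWH h hπw
  rw [hdel0, map_zero, zero_add] at hkey
  have hcc := congrArg PowerSeries.constantCoeff hkey
  rw [map_mul, constantCoeff_θ, mul_zero, map_mul, map_mul, map_natCast, h.P0, mul_one] at hcc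
  have hunit : PowerSeries.constantCoeff (ev Qb Rb π) ≠ 0 := by
    intro h0
    have := congrArg PowerSeries.constantCoeff (congrArg (ev Qb Rb) hu)
    rw [hA.ev_one, map_mul, map_mul, h0, zero_mul, map_one] at this
    exact one_ne_zero this
  have hwl : w < l := by
    have := hl.out.pos
    omega
  rcases mul_eq_zero.mp hcc.symm with h0 | h0
  · exact natCast_ne_zero_of_lt hw0 hwl h0
  · exact hunit h0

/-- The Hasse invariant is coprime to its `∂`-derivative (so it is squarefree). -/
theorem isRelPrime_A_del [PerfectField K] (h : Ramanujan Qb Rb Pb) (h5 : 5 ≤ l) (hA : Hasse l Qb Rb A) :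
    IsRelPrime A (del A) := by
  rw [UniqueFactorizationMonoid.isRelPrime_iff_no_prime_factors hA.ne_zero]
  intro π hπA hπB hπ
  obtain ⟨hnd, w, hw0, hwl, hπw⟩ := prime_factor h hA hπ hπA
  obtain ⟨n, u, hnu, hAu⟩ := WfDvdMonoid.max_power_factor hA.ne_zero hπ.irreducible
  have hu0 : u ≠ 0 := by
    rintro rfl
    exact hA.ne_zero (by rw [hAu, mul_zero])
  have hn1 : 1 ≤ n := by
    rcases Nat.eq_zero_or_pos n with rfl | hpos
    · exfalso
      rw [pow_zero, one_mul] at hAu
      exact hnu (hAu ▸ hπA)
    · exact hpos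
  have hnl : n < l := by
    have hw := hA.isWH
    rw [hAu] at hw
    have := (factor_right wt (pow_ne_zero n hπ.ne_zero) (hπw.pow n) hw).2 hu0
    have hpos := hl.out.pos
    have : n * 1 ≤ n * w := Nat.mul_le_mul_left n hw0
    simp only [smul_eq_mul] at *
    omega
  -- first derivative
  set v := (n : MvPolynomial (Fin 2) K) * del π * u + π * del u with hv
  have hdelA : del A = π ^ (n - 1) * v := by
    rw [hAu, del_mul, del_pow, hv]
    have : π ^ n = π ^ (n - 1) * π := by
      rw [← pow_succ]; congr 1; omega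
    rw [this]; ring
  have hndv : ¬ π ∣ v := by
    intro hdv
    have h1 : π ∣ (n : MvPolynomial (Fin 2) K) * del π * u :=
      (dvd_add_left (dvd_mul_right π (del u))).mp hdv
    rcases hπ.dvd_or_dvd h1 with h2 | h2
    · rcases hπ.dvd_or_dvd h2 with h3 | h3
      · exact hπ.not_isUnit (isUnit_of_dvd_unit h3 (natCast_isUnit hn1 hnl))
      · exact hnd h3
    · exact hnu h2
  rcases Nat.lt_or_ge n 2 with hn2 | hn2
  · have hn : n = 1 := by omega
    subst hn
    rw [Nat.sub_self, pow_zero, one_mul] at hdelA
    exact hndv (hdelA ▸ hπB)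
  · -- second derivative
    have hdd : del (del A) = ((n - 1 : ℕ) : MvPolynomial (Fin 2) K) * π ^ (n - 2) * del π * v
        + π ^ (n - 1) * del v := by
      rw [hdelA, del_mul, del_pow]
      have : n - 1 - 1 = n - 2 := by omega
      rw [this]
    have hdd2 : del (del A) = π ^ (n - 1) * (-(X 0 * π * u)) := by
      rw [del_del_A h h5 hA, hAu]
      have : π ^ n = π ^ (n - 1) * π := by
        rw [← pow_succ]; congr 1; omega
      rw [this]; ring
    have hsplit : π ^ (n - 1) = π ^ (n - 2) * π := by
      rw [← pow_succ]; congr 1; omega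
    have hdvd : π ^ (n - 2) * π ∣
        π ^ (n - 2) * (((n - 1 : ℕ) : MvPolynomial (Fin 2) K) * del π * v) := by
      have e : π ^ (n - 2) * (((n - 1 : ℕ) : MvPolynomial (Fin 2) K) * del π * v)
          = π ^ (n - 1) * (-(X 0 * π * u)) - π ^ (n - 1) * del v := by
        rw [← hdd2, hdd]; ring
      rw [e, ← hsplit]
      exact dvd_sub (dvd_mul_right _ _) (dvd_mul_right _ _)
    have h1 := (mul_dvd_mul_iff_left (pow_ne_zero (n - 2) hπ.ne_zero)).mp hdvd
    rcases hπ.dvd_or_dvd h1 with h2 | h2
    · rcases hπ.dvd_or_dvd h2 with h3 | h3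
      · exact hπ.not_isUnit (isUnit_of_dvd_unit h3 (natCast_isUnit (by omega) (by omega)))
      · exact hnd h3
    · exact hndv h2

theorem disc_ne_zero (h : Ramanujan Qb Rb Pb) :
    (X 0 ^ 3 - X 1 ^ 2 : MvPolynomial (Fin 2) K) ≠ 0 := by
  intro h0
  apply h.QR
  have := congrArg (ev Qb Rb) h0
  rwa [map_sub, map_pow, map_pow, ev_X0, ev_X1, map_zero] at this

/-- **Abstract Swinnerton-Dyer**: an isobaric polynomial of weight `k` whose value at `(Qb, Rb)`
is a nonzero constant has `(l - 1) ∣ k`. -/
theorem swd [PerfectField K] (h : Ramanujan Qb Rb Pb) (h5 : 5 ≤ l) (hA : Hasse l Qb Rb A) :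
    ∀ (k : ℕ) (F : MvPolynomial (Fin 2) K), IsWeightedHomogeneous wt F k →
      ∀ c : K, c ≠ 0 → ev Qb Rb F = PowerSeries.C c → (l - 1) ∣ k := by
  intro k
  induction k using Nat.strong_induction_on with
  | _ k ih =>
    intro F hF c hc hev
    have hlpos := hl.out.pos
    have hF0 : F ≠ 0 := by
      rintro rfl
      rw [map_zero] at hev
      exact hc ((map_eq_zero_iff _ PowerSeries.C_injective).mp hev.symm)
    -- the polynomial identity `A * ∂F + k * F * ∂A = 0`
    have hid : A * del F + (k : MvPolynomial (Fin 2) K) * F * del A = 0 := by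
      have hw1 : IsWeightedHomogeneous wt (A * del F) (k + l + 1) := by
        have := hA.isWH.mul (isWH_del hF)
        have e : l - 1 + (k + 2) = k + l + 1 := by omega
        rwa [e] at this
      have hw2 : IsWeightedHomogeneous wt ((k : MvPolynomial (Fin 2) K) * F * del A)
          (k + l + 1) := by
        have := (hF.mul (isWH_del hA.isWH)).C_mul ((k : ℕ) : K)
        have e : k + (l - 1 + 2) = k + l + 1 := by omega
        rw [e] at this
        have e2 : (k : MvPolynomial (Fin 2) K) * F * del A
            = C ((k : ℕ) : K) * (F * del A) := by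
          rw [map_natCast]; ring
        rwa [e2]
      apply ev_injective_isWH h h5 (k + l + 1) _ (hw1.add hw2)
      have hk := key_isWH h hF
      rw [hev, θ_C, mul_zero] at hk
      rw [map_add, map_mul, map_mul, map_mul, map_natCast, hA.ev_one, ev_del_A h hA, hev]
      linear_combination -hk
    by_cases hk0 : ((k : ℕ) : K) = 0
    · -- `l ∣ k`
      rcases Nat.eq_zero_or_pos k with rfl | hkpos
      · exact dvd_zero _
      have hlk : l ∣ k := (CharP.cast_eq_zero_iff K l _).mp hk0
      have hkP : (k : MvPolynomial (Fin 2) K) = 0 := by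
        have : (k : MvPolynomial (Fin 2) K) = C ((k : ℕ) : K) := by rw [map_natCast]
        rw [this, hk0, map_zero]
      have hdelF : del F = 0 := by
        rw [hkP, zero_mul, zero_mul, add_zero] at hid
        exact (mul_eq_zero.mp hid).resolve_left hA.ne_zero
      have heulF : eul F = 0 := by rw [eul_of_isWH hF, hkP, zero_mul]
      have h24 := twentyfour_ne_zero' (l := l) (K := K) h5
      have hdisc := disc_ne_zero h
      have hp0 : pderiv 0 F = 0 := by
        have := cramer0 F
        rw [hdelF, heulF, mul_zero, mul_zero, add_zero] at this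
        exact (mul_eq_zero.mp this.symm).resolve_left (mul_ne_zero h24 hdisc)
      have hp1 : pderiv 1 F = 0 := by
        have := cramer1 F
        rw [hdelF, heulF, mul_zero, mul_zero, add_zero] at this
        exact (mul_eq_zero.mp this.symm).resolve_left
          (mul_ne_zero (neg_ne_zero.mpr h24) hdisc)
      obtain ⟨G, hFG, hG⟩ := exists_pow_eq_of_pderiv_eq_zero hp0 hp1
      have hGpow : ev Qb Rb G ^ l = PowerSeries.C c := by rw [← map_pow, ← hFG, hev]
      have hGC := pow_eq_C_imp hGpow
      have hc' : PowerSeries.constantCoeff (ev Qb Rb G) ≠ 0 := by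
        intro h0
        rw [h0, map_zero] at hGC
        rw [hGC, zero_pow hl.out.ne_zero] at hGpow
        exact hc ((map_eq_zero_iff _ PowerSeries.C_injective).mp hGpow.symm)
      have hlt : k / l < k := Nat.div_lt_self hkpos hl.out.one_lt
      have := ih (k / l) hlt G (hG k hF) _ hc' hGC
      obtain ⟨t, ht⟩ := hlk
      rw [ht, Nat.mul_div_cancel_left _ hlpos] at this
      rw [ht]
      exact this.mul_left l
    · -- `l ∤ k`
      have hkunit : IsUnit (k : MvPolynomial (Fin 2) K) := by
        have : (k : MvPolynomial (Fin 2) K) = C ((k : ℕ) : K) := by rw [map_natCast]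
        rw [this]
        exact (IsUnit.mk0 _ hk0).map C
      have hdvd : A ∣ del A * ((k : MvPolynomial (Fin 2) K) * F) := by
        refine ⟨-del F, ?_⟩
        linear_combination hid
      have hAF : A ∣ F :=
        (hkunit.dvd_mul_left).mp ((isRelPrime_A_del h h5 hA).dvd_of_dvd_mul_left hdvd)
      obtain ⟨F1, hF1⟩ := hAF
      have hF1w := factor_right wt hA.ne_zero hA.isWH (hF1 ▸ hF)
      have hF10 : F1 ≠ 0 := by
        rintro rfl
        exact hF0 (by rw [hF1, mul_zero])
      have hle : l - 1 ≤ k := hF1w.2 hF10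
      have hevF1 : ev Qb Rb F1 = PowerSeries.C c := by
        rw [← hev, hF1, map_mul, hA.ev_one, one_mul]
      have hlt : k - (l - 1) < k := by omega
      have := ih (k - (l - 1)) hlt F1 hF1w.1 c hc hevF1
      have e : k = (k - (l - 1)) + (l - 1) := by omega
      rw [e]
      exact dvd_add this dvd_rfl

end main

section general

variable {l : ℕ} [hl : Fact l.Prime] {K : Type*} [Field K] [CharP K l]

theorem θ_map {R S : Type*} [CommRing R] [CommRing S] (φ : R →+* S) (f : PowerSeries R) :
    θ (PowerSeries.map φ f) = PowerSeries.map φ (θ f) := by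
  ext n
  simp [coeff_θ, PowerSeries.coeff_map]

theorem ev_map {L : Type*} [Field L] (φ : K →+* L) (Qb Rb : PowerSeries K)
    (F : MvPolynomial (Fin 2) K) :
    ev (PowerSeries.map φ Qb) (PowerSeries.map φ Rb) (MvPolynomial.map φ F)
      = PowerSeries.map φ (ev Qb Rb F) := by
  induction F using MvPolynomial.induction_on with
  | C a => simp
  | add p q hp hq => rw [map_add, map_add, hp, hq, map_add, map_add]
  | mul_X p i ih =>
    fin_cases i
    · simp only [Fin.zero_eta]
      simp only [map_mul, map_X, ev_X0, ih]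
    · simp only [Fin.mk_one]
      simp only [map_mul, map_X, ev_X1, ih]

/-- **Abstract Swinnerton-Dyer over an arbitrary field of characteristic `l ≥ 5`.** -/
theorem swd_field {Qb Rb Pb : PowerSeries K} {A : MvPolynomial (Fin 2) K}
    (h : Ramanujan Qb Rb Pb) (h5 : 5 ≤ l) (hA : Hasse l Qb Rb A)
    (k : ℕ) (F : MvPolynomial (Fin 2) K) (hF : IsWeightedHomogeneous wt F k)
    (c : K) (hc : c ≠ 0) (hev : ev Qb Rb F = PowerSeries.C c) : (l - 1) ∣ k := by
  let L := AlgebraicClosure K
  let φ : K →+* L := algebraMap K L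
  have hφ : Function.Injective φ := (algebraMap K L).injective
  have : CharP L l := charP_of_injective_algebraMap hφ l
  have hmapinj : ∀ f : PowerSeries K, PowerSeries.map φ f = 0 → f = 0 := by
    intro f hf
    ext n
    have := congrArg (PowerSeries.coeff n) hf
    rw [PowerSeries.coeff_map, map_zero] at this
    rw [map_zero]
    exact (map_eq_zero_iff φ hφ).mp this
  have hwh : ∀ (G : MvPolynomial (Fin 2) K) (n : ℕ), IsWeightedHomogeneous wt G n →
      IsWeightedHomogeneous wt (MvPolynomial.map φ G) n := by
    intro G n hG d hd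
    apply hG
    intro h0
    apply hd
    rw [coeff_map, h0, map_zero]
  have hR : Ramanujan (PowerSeries.map φ Qb) (PowerSeries.map φ Rb) (PowerSeries.map φ Pb) := by
    refine ⟨?_, ?_, ?_, ?_, ?_⟩
    · have := congrArg (PowerSeries.map φ) h.thQ
      simpa only [map_mul, map_sub, map_ofNat, θ_map] using this
    · have := congrArg (PowerSeries.map φ) h.thR
      simpa only [map_mul, map_sub, map_pow, map_ofNat, θ_map] using this
    · have := congrArg (PowerSeries.map φ) h.thP
      simpa only [map_mul, map_sub, map_pow, map_ofNat, θ_map] using this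
    · rw [← PowerSeries.coeff_zero_eq_constantCoeff_apply, PowerSeries.coeff_map,
        PowerSeries.coeff_zero_eq_constantCoeff_apply, h.P0, map_one]
    · intro h0
      apply h.QR
      apply hmapinj
      rw [map_sub, map_pow, map_pow]
      exact h0
  have hH : Hasse l (PowerSeries.map φ Qb) (PowerSeries.map φ Rb) (MvPolynomial.map φ A) := by
    refine ⟨hwh A _ hA.isWH, ?_⟩
    rw [ev_map, hA.ev_one, map_one]
  have hev' : ev (PowerSeries.map φ Qb) (PowerSeries.map φ Rb) (MvPolynomial.map φ F)
      = PowerSeries.C (φ c) := by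
    rw [ev_map, hev, PowerSeries.map_C]
  exact swd hR h5 hH k _ (hwh F k hF) (φ c) ((map_ne_zero_iff φ hφ).mpr hc) hev'

end general

end Fermat.Agent.S16.SwD.AbstractK
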